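/-
S37 (specialization datum for `JZero N`): the FORMAL part.

For a valuation subring `A` of `L` over `ℓ` and ONE Frobenius element `s` at `A`, let
`relSubmodule` be the Hecke submodule of `J` generated by

* `σ • x - x`                                   (`σ` in the inertia group of `A`), and
* `s • s • x - T_ℓ • (s • x) + ℓ • x`           (the Eichler–Shimura expression).

Then `J' := J ⧸ relSubmodule`, `sp :=` the quotient map, `F :=` the map induced by `s` satisfy
every clause of `IsSpecialization` and `SpecialFibreRelation` for formal reasons, EXCEPT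
`injective_torsion`, which is exactly the hypothesis `hcore` below:
a `p`-power torsion element of `relSubmodule` is `0`.
(helper65; nothing here is specific to modular curves.)
-/
import Fermat.Prelude.Def_HeckeGalois_EichlerShimura

set_option autoImplicit false

noncomputable section

namespace Fermat.Agent.S37.H65

open ModularCurve

section Generic

variable {K L : Type*} [Field K] [Field L] [Algebra K L]
variable (J : Type*) [AddCommGroup J] [Module HeckeAlg J]
  [DistribMulAction (L ≃ₐ[K] L) J] [SMulCommClass (L ≃ₐ[K] L) HeckeAlg J]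

/-- The generators of the relation submodule. -/
def relGens (A : ValuationSubring L) (ℓ : ℕ) (hℓ : ℓ.Prime) (s : L ≃ₐ[K] L) : Set J :=
  {y | ∃ σ ∈ A.inertiaSubgroupIn K, ∃ x : J, y = σ • x - x} ∪
    {y | ∃ x : J, y = s • s • x - heckeGen ⟨ℓ, hℓ⟩ • (s • x) + ℓ • x}

/-- The relation submodule: inertia augmentation plus the Eichler–Shimura expression. -/
def relSubmodule (A : ValuationSubring L) (ℓ : ℕ) (hℓ : ℓ.Prime) (s : L ≃ₐ[K] L) :
    Submodule HeckeAlg J :=
  Submodule.span HeckeAlg (relGens J A ℓ hℓ s)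

variable {J}

omit [SMulCommClass (L ≃ₐ[K] L) HeckeAlg J] in
theorem inertia_sub_mem (A : ValuationSubring L) (ℓ : ℕ) (hℓ : ℓ.Prime) (s : L ≃ₐ[K] L)
    {σ : L ≃ₐ[K] L} (hσ : σ ∈ A.inertiaSubgroupIn K) (x : J) :
    σ • x - x ∈ relSubmodule J A ℓ hℓ s :=
  Submodule.subset_span (Or.inl ⟨σ, hσ, x, rfl⟩)

omit [SMulCommClass (L ≃ₐ[K] L) HeckeAlg J] in
theorem quadratic_mem (A : ValuationSubring L) (ℓ : ℕ) (hℓ : ℓ.Prime) (s : L ≃ₐ[K] L) (x : J) :
    s • s • x - heckeGen ⟨ℓ, hℓ⟩ • (s • x) + ℓ • x ∈ relSubmodule J A ℓ hℓ s :=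
  Submodule.subset_span (Or.inr ⟨x, rfl⟩)

/-- Conjugation by an element of the decomposition group preserves the inertia group. -/
theorem conj_mem_inertiaSubgroupIn (A : ValuationSubring L) {s σ : L ≃ₐ[K] L}
    (hs : s ∈ A.decompositionSubgroup K) (hσ : σ ∈ A.inertiaSubgroupIn K) :
    s * σ * s⁻¹ ∈ A.inertiaSubgroupIn K := by
  obtain ⟨σ', hσ', rfl⟩ := Subgroup.mem_map.mp hσ
  refine Subgroup.mem_map.mpr
    ⟨(⟨s, hs⟩ : A.decompositionSubgroup K) * σ' * (⟨s, hs⟩ : A.decompositionSubgroup K)⁻¹, ?_, rfl⟩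
  have hσ'' : σ' ∈ MonoidHom.ker
      (MulSemiringAction.toRingAut (A.decompositionSubgroup K) (IsLocalRing.ResidueField A)) := hσ'
  show _ ∈ MonoidHom.ker
      (MulSemiringAction.toRingAut (A.decompositionSubgroup K) (IsLocalRing.ResidueField A))
  rw [MonoidHom.mem_ker] at hσ'' ⊢
  rw [map_mul, map_mul, hσ'', mul_one, ← map_mul, mul_inv_cancel, map_one]

/-- Two Frobenius elements differ by an element of the inertia group. -/
theorem inv_mul_mem_inertiaSubgroupIn (A : ValuationSubring L) {ℓ : ℕ} {s σ : L ≃ₐ[K] L}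
    (hs : A.IsFrobeniusAt s ℓ) (hσ : A.IsFrobeniusAt σ ℓ) :
    s⁻¹ * σ ∈ A.inertiaSubgroupIn K := by
  refine Subgroup.mem_map.mpr
    ⟨(⟨s, hs.mem_decompositionSubgroup⟩ : A.decompositionSubgroup K)⁻¹ *
      ⟨σ, hσ.mem_decompositionSubgroup⟩, ?_, rfl⟩
  show _ ∈ MonoidHom.ker
      (MulSemiringAction.toRingAut (A.decompositionSubgroup K) (IsLocalRing.ResidueField A))
  rw [MonoidHom.mem_ker]
  ext x
  show ((⟨s, hs.mem_decompositionSubgroup⟩ : A.decompositionSubgroup K)⁻¹ *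
    ⟨σ, hσ.mem_decompositionSubgroup⟩) • x = x
  rw [mul_smul, hσ.smul_residue_eq, ← hs.smul_residue_eq, inv_smul_smul]

/-- The relation submodule is stable under the chosen Frobenius. -/
theorem relSubmodule_le_comap (A : ValuationSubring L) (ℓ : ℕ) (hℓ : ℓ.Prime) {s : L ≃ₐ[K] L}
    (hs : s ∈ A.decompositionSubgroup K) :
    relSubmodule J A ℓ hℓ s ≤
      (relSubmodule J A ℓ hℓ s).comap (DistribSMul.toLinearMap HeckeAlg J s) := by
  unfold relSubmodule
  rw [Submodule.span_le]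
  rintro y (⟨σ, hσ, x, rfl⟩ | ⟨x, rfl⟩)
  · show s • (σ • x - x) ∈ Submodule.span HeckeAlg (relGens J A ℓ hℓ s)
    have h : s • (σ • x - x) = (s * σ * s⁻¹) • (s • x) - s • x := by
      rw [smul_sub, mul_smul, mul_smul, inv_smul_smul]
    rw [h]
    exact Submodule.subset_span (Or.inl ⟨_, conj_mem_inertiaSubgroupIn A hs hσ, s • x, rfl⟩)
  · show s • (s • s • x - heckeGen ⟨ℓ, hℓ⟩ • (s • x) + ℓ • x) ∈
      Submodule.span HeckeAlg (relGens J A ℓ hℓ s)
    have h : s • (s • s • x - heckeGen ⟨ℓ, hℓ⟩ • (s • x) + ℓ • x) =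
        s • s • (s • x) - heckeGen ⟨ℓ, hℓ⟩ • (s • (s • x)) + ℓ • (s • x) := by
      rw [smul_add, smul_sub, smul_comm s (heckeGen ⟨ℓ, hℓ⟩) (s • x), smul_comm s ℓ x]
    rw [h]
    exact Submodule.subset_span (Or.inr ⟨s • x, rfl⟩)

/-- The endomorphism of the quotient induced by the chosen Frobenius. -/
def frobQuot (A : ValuationSubring L) (ℓ : ℕ) (hℓ : ℓ.Prime) {s : L ≃ₐ[K] L}
    (hs : s ∈ A.decompositionSubgroup K) :
    (J ⧸ relSubmodule J A ℓ hℓ s) →ₗ[HeckeAlg] (J ⧸ relSubmodule J A ℓ hℓ s) :=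
  (relSubmodule J A ℓ hℓ s).mapQ (relSubmodule J A ℓ hℓ s) (DistribSMul.toLinearMap HeckeAlg J s)
    (relSubmodule_le_comap A ℓ hℓ hs)

theorem frobQuot_mk (A : ValuationSubring L) (ℓ : ℕ) (hℓ : ℓ.Prime) {s : L ≃ₐ[K] L}
    (hs : s ∈ A.decompositionSubgroup K) (x : J) :
    frobQuot A ℓ hℓ hs (Submodule.Quotient.mk x) =
      (Submodule.Quotient.mk (s • x) : J ⧸ relSubmodule J A ℓ hℓ s) :=
  rfl

/-- **Formal witness.**  If the `p`-power torsion of the relation submodule vanishes, the quotient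
is a specialization datum satisfying the special fibre relation. -/
theorem exists_specialization_of_core {J : Type} [AddCommGroup J] [Module HeckeAlg J]
    [DistribMulAction (L ≃ₐ[K] L) J] [SMulCommClass (L ≃ₐ[K] L) HeckeAlg J]
    (p : ℕ) (A : ValuationSubring L) (ℓ : ℕ) (hℓ : ℓ.Prime)
    (s : L ≃ₐ[K] L) (hs : A.IsFrobeniusAt s ℓ)
    (hcore : ∀ x ∈ relSubmodule J A ℓ hℓ s, (∃ n : ℕ, p ^ n • x = 0) → x = 0) :
    ∃ (J' : Type) (_ : AddCommGroup J') (_ : Module HeckeAlg J') (sp : J →+ J')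
      (F : J' →+ J'),
      IsSpecialization (K := K) p J J' A ℓ sp F ∧ SpecialFibreRelation J' ℓ hℓ F := by
  have hsD := hs.mem_decompositionSubgroup
  refine ⟨J ⧸ relSubmodule J A ℓ hℓ s, inferInstance, inferInstance,
    (relSubmodule J A ℓ hℓ s).mkQ.toAddMonoidHom, (frobQuot A ℓ hℓ hsD).toAddMonoidHom,
    ⟨?_, ?_, ?_, ?_⟩, ?_⟩
  · intro T x
    exact map_smul (relSubmodule J A ℓ hℓ s).mkQ T x
  · intro σ hσ x
    show (Submodule.Quotient.mk (σ • x) : J ⧸ relSubmodule J A ℓ hℓ s) = Submodule.Quotient.mk x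
    rw [← sub_eq_zero, ← Submodule.Quotient.mk_sub, Submodule.Quotient.mk_eq_zero]
    exact inertia_sub_mem A ℓ hℓ s hσ x
  · intro σ hσ x
    show (Submodule.Quotient.mk (σ • x) : J ⧸ relSubmodule J A ℓ hℓ s) =
      frobQuot A ℓ hℓ hsD (Submodule.Quotient.mk x)
    rw [frobQuot_mk, ← sub_eq_zero, ← Submodule.Quotient.mk_sub, Submodule.Quotient.mk_eq_zero]
    have h : σ • x - s • x = s • ((s⁻¹ * σ) • x - x) := by
      rw [smul_sub, mul_smul, smul_inv_smul]
    rw [h]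
    exact relSubmodule_le_comap A ℓ hℓ hsD
      (inertia_sub_mem A ℓ hℓ s (inv_mul_mem_inertiaSubgroupIn A hs hσ) x)
  · intro x hx hx0
    refine hcore x ?_ hx
    have : (Submodule.Quotient.mk x : J ⧸ relSubmodule J A ℓ hℓ s) = 0 := hx0
    rwa [Submodule.Quotient.mk_eq_zero] at this
  · intro y
    obtain ⟨x, rfl⟩ := (relSubmodule J A ℓ hℓ s).mkQ_surjective y
    show frobQuot A ℓ hℓ hsD (frobQuot A ℓ hℓ hsD (Submodule.Quotient.mk x))
      - heckeGen ⟨ℓ, hℓ⟩ • frobQuot A ℓ hℓ hsD (Submodule.Quotient.mk x)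
      + ℓ • (Submodule.Quotient.mk x : J ⧸ relSubmodule J A ℓ hℓ s) = 0
    rw [frobQuot_mk, frobQuot_mk, ← Submodule.Quotient.mk_smul, ← Submodule.Quotient.mk_smul,
      ← Submodule.Quotient.mk_sub, ← Submodule.Quotient.mk_add, Submodule.Quotient.mk_eq_zero]
    exact quadratic_mem A ℓ hℓ s x

end Generic

end Fermat.Agent.S37.H65

end
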