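/-
S37 top skeleton (helper65): the frozen statement follows from ONE non-formal input,

  `Core N p` : for every prime `ℓ ∤ N * p`, every valuation subring `A` of `ℚbar` over `ℓ` and every
  Frobenius `s` at `A`, the relation submodule `relSubmodule (JZero N) A ℓ _ s`
  (inertia augmentation + `s² - T_ℓ s + ℓ`) has no nonzero `p`-power torsion.

Frobenius elements exist by the landed `Fermat.Agent.S54.H94.exists_isFrobeniusAt_of_liesOverPrime`.
-/
import Fermat.Statements.S37
import Fermat.Agent.S37.H65.Witness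
import Fermat.Agent.S54.H94.Frobenius

set_option autoImplicit false

namespace Fermat.Agent.S37.H65

open ModularCurve

/-- The only non-formal input of S37, for a given Hecke-module structure on `JZero N`. -/
def Core (N p : ℕ) [NeZero N] [Module HeckeAlg (JZero N)]
    [SMulCommClass (AlgebraicClosure ℚ ≃ₐ[ℚ] AlgebraicClosure ℚ) HeckeAlg (JZero N)] : Prop :=
  ∀ ℓ : ℕ, (hℓ : ℓ.Prime) → ¬ ℓ ∣ N * p →
    ∀ A : ValuationSubring (AlgebraicClosure ℚ), A.LiesOverPrime ℓ →
      ∀ s : AlgebraicClosure ℚ ≃ₐ[ℚ] AlgebraicClosure ℚ, A.IsFrobeniusAt s ℓ →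
        ∀ x ∈ relSubmodule (K := ℚ) (JZero N) A ℓ hℓ s, (∃ n : ℕ, p ^ n • x = 0) → x = 0

theorem specializationExists_of_core (N p : ℕ) [NeZero N] [Module HeckeAlg (JZero N)]
    [SMulCommClass (AlgebraicClosure ℚ ≃ₐ[ℚ] AlgebraicClosure ℚ) HeckeAlg (JZero N)]
    (hcore : Core N p) :
    SpecializationExists (K := ℚ) (L := AlgebraicClosure ℚ) N p (JZero N) := by
  intro ℓ hℓ hℓNp A hA
  obtain ⟨s, hs⟩ := Fermat.Agent.S54.H94.exists_isFrobeniusAt_of_liesOverPrime A hℓ hA
  exact exists_specialization_of_core p A ℓ hℓ s hs (hcore ℓ hℓ hℓNp A hA s hs)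

/-- S37 from `Core` (stated with the frozen shape of the conclusion). -/
theorem result_of_core (N p : ℕ) [NeZero N] (_hcomm : HeckeOperatorsCommuteBar N) :
    letI := heckeModuleBar N
    ∀ (_ : SMulCommClass (AlgebraicClosure ℚ ≃ₐ[ℚ] AlgebraicClosure ℚ) HeckeAlg (JZero N)),
      Core N p →
        SpecializationExists (K := ℚ) (L := AlgebraicClosure ℚ) N p (JZero N) := by
  letI := heckeModuleBar N
  intro _ hcore
  exact specializationExists_of_core N p hcore

end Fermat.Agent.S37.H65
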